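/-
CELL-H / CELL-R shared node (H-d) (helper18): **the Kummer isomorphism
`Kum K F m ≃ Pic⁰(F)[m]`** for a function field `F` over an algebraically closed constant field.

`Kum K F m = {u ∈ Fˣ | m ∣ ord_P u ∀ P} / (Fˣ)^m` (GATE-J, `GJ/J2/EigIface.lean`),
`Pic0.torsion K F m` the `m`-torsion of the degree-zero divisor class group (prelude).

`u ↦ [(1/m)·div u]`.  Hypotheses: `HasPrincipalDivisors K F` (principal divisors are finitely
supported of degree `0`), functions without zeros and poles are constants (`hconst`), and every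
constant is an `m`-th power (`hroot`; e.g. `K` algebraically closed).
-/
import Mathlib
import Fermat.Agent.GJ.J2.EigIface

set_option autoImplicit false

noncomputable section

namespace Fermat.Agent.GH.KummerPic

open AlgebraicCurve Fermat.Agent.GJ.KumGroup

variable {K F : Type*} [Field K] [Field F] [Algebra K F] [HasPrincipalDivisors K F]

/-- the divisor of a nonzero function -/
def divOf (f : F) (hf : f ≠ 0) : Divisor K F :=
  (HasPrincipalDivisors.exists_divisor (K := K) f hf).choose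

theorem divOf_apply (f : F) (hf : f ≠ 0) (v : Place K F) : divOf (K := K) f hf v = v.ord f :=
  (HasPrincipalDivisors.exists_divisor (K := K) f hf).choose_spec.1 v

theorem degree_divOf (f : F) (hf : f ≠ 0) : Divisor.degree (divOf (K := K) f hf) = 0 :=
  (HasPrincipalDivisors.exists_divisor (K := K) f hf).choose_spec.2

variable (m : ℕ) [NeZero m]

/-- `(1/m)·div u` for `u` with `m ∣ div u` -/
def divDiv (u : pDivUnits K F m) : Divisor K F :=
  (divOf (K := K) ((u : Fˣ) : F) (u : Fˣ).ne_zero).mapRange (fun n => n / (m : ℤ))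
    (Int.zero_ediv _)

omit [NeZero m] in
theorem divDiv_apply (u : pDivUnits K F m) (v : Place K F) :
    divDiv m u v = v.ord ((u : Fˣ) : F) / (m : ℤ) := by
  rw [divDiv, Finsupp.mapRange_apply, divOf_apply]

omit [NeZero m] in
theorem mul_divDiv_apply (u : pDivUnits K F m) (v : Place K F) :
    (m : ℤ) * divDiv m u v = v.ord ((u : Fˣ) : F) := by
  rw [divDiv_apply]
  exact Int.mul_ediv_cancel' (u.2 v)

theorem divDiv_mul (u w : pDivUnits K F m) : divDiv m (u * w) = divDiv m u + divDiv m w := by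
  ext v
  have hm : (m : ℤ) ≠ 0 := Int.natCast_ne_zero.2 (NeZero.ne m)
  apply mul_left_cancel₀ hm
  rw [Finsupp.add_apply, mul_add, mul_divDiv_apply, mul_divDiv_apply, mul_divDiv_apply]
  show v.ord (((u : Fˣ) * (w : Fˣ) : Fˣ) : F) = _
  rw [Units.val_mul, Place.ord_mul _ (u : Fˣ).ne_zero (w : Fˣ).ne_zero]

theorem degree_divDiv (u : pDivUnits K F m) : Divisor.degree (divDiv m u) = 0 := by
  have hm : (m : ℤ) ≠ 0 := Int.natCast_ne_zero.2 (NeZero.ne m)
  have h : (m : ℤ) • divDiv m u = divOf (K := K) ((u : Fˣ) : F) (u : Fˣ).ne_zero := by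
    ext v
    rw [Finsupp.smul_apply, smul_eq_mul, mul_divDiv_apply, divOf_apply]
  have h2 := congrArg Divisor.degree h
  rw [map_zsmul, degree_divOf, smul_eq_mul] at h2
  exact (mul_eq_zero.1 h2).resolve_left hm

/-- `u ↦ [(1/m)·div u] ∈ Pic⁰(F)` -/
def kum0 : Additive (pDivUnits K F m) →+ Pic0 K F where
  toFun u := Pic0.mk ⟨divDiv m (Additive.toMul u), degree_divDiv m _⟩
  map_zero' := by
    have h : divDiv m (1 : pDivUnits K F m) = 0 := by
      ext v
      have hm : (m : ℤ) ≠ 0 := Int.natCast_ne_zero.2 (NeZero.ne m)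
      apply mul_left_cancel₀ hm
      rw [mul_divDiv_apply, Finsupp.zero_apply, mul_zero]
      show v.ord ((1 : Fˣ) : F) = 0
      rw [Units.val_one, Place.ord_one]
    show Pic0.mk ⟨divDiv m (1 : pDivUnits K F m), _⟩ = 0
    rw [← Pic0.mk_zero]
    congr 1
    exact Subtype.ext h
  map_add' a b := by
    show Pic0.mk ⟨divDiv m (Additive.toMul a * Additive.toMul b), _⟩ = _
    rw [← Pic0.mk_add]
    congr 1
    exact Subtype.ext (divDiv_mul m _ _)

theorem kum0_apply (u : pDivUnits K F m) :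
    kum0 m (Additive.ofMul u) = Pic0.mk ⟨divDiv m u, degree_divDiv m u⟩ := rfl

omit [HasPrincipalDivisors K F] in
/-- a class `[D]` is zero iff `D` is principal -/
theorem mk_eq_zero_iff (D : Divisor.degZero (K := K) (F := F)) :
    Pic0.mk D = 0 ↔ Divisor.IsPrincipal (D : Divisor K F) := by
  show (QuotientAddGroup.mk D : Pic0 K F) = 0 ↔ _
  rw [QuotientAddGroup.eq_zero_iff, AddSubgroup.mem_addSubgroupOf, Divisor.mem_principal]

theorem kum0_mem_torsion (u : pDivUnits K F m) :
    kum0 m (Additive.ofMul u) ∈ Pic0.torsion K F m := by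
  rw [Pic0.mem_torsion, kum0_apply]
  have h : (m : ℤ) • (⟨divDiv m u, degree_divDiv m u⟩ : Divisor.degZero (K := K) (F := F)) =
      ⟨divOf (K := K) ((u : Fˣ) : F) (u : Fˣ).ne_zero, degree_divOf _ _⟩ := by
    apply Subtype.ext
    ext v
    show ((m : ℤ) • divDiv m u) v = _
    rw [Finsupp.smul_apply, smul_eq_mul, mul_divDiv_apply, divOf_apply]
  have h2 : (m : ℤ) • Pic0.mk (⟨divDiv m u, degree_divDiv m u⟩ :
      Divisor.degZero (K := K) (F := F)) =
      Pic0.mk ((m : ℤ) • (⟨divDiv m u, degree_divDiv m u⟩ :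
        Divisor.degZero (K := K) (F := F))) := rfl
  rw [h2, h, mk_eq_zero_iff]
  exact ⟨((u : Fˣ) : F), (u : Fˣ).ne_zero,
    fun v => divOf_apply (K := K) ((u : Fˣ) : F) (u : Fˣ).ne_zero v⟩

theorem kum0_eq_zero_of_pow (u : pDivUnits K F m) (w : Fˣ) (h : (u : Fˣ) = w ^ m) :
    kum0 m (Additive.ofMul u) = 0 := by
  rw [kum0_apply, mk_eq_zero_iff]
  refine ⟨(w : F), w.ne_zero, fun v => ?_⟩
  have hm : (m : ℤ) ≠ 0 := Int.natCast_ne_zero.2 (NeZero.ne m)
  apply mul_left_cancel₀ hm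
  show (m : ℤ) * divDiv m u v = _
  rw [mul_divDiv_apply, h, Units.val_pow_eq_pow_val, ← zpow_natCast, Place.ord_zpow]

/-- the Kummer map to `Pic⁰`, multiplicative form -/
def kumMul : Kum K F m →* Multiplicative (Pic0 K F) :=
  QuotientGroup.lift (pPowers K F m)
    (AddMonoidHom.toMultiplicativeRight (kum0 (K := K) (F := F) m)) (by
      intro u hu
      obtain ⟨w, hw⟩ := hu
      have h : (u : Fˣ) = w ^ m := hw.symm
      show Multiplicative.ofAdd (kum0 m (Additive.ofMul u)) = 1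
      rw [kum0_eq_zero_of_pow m u w h]
      rfl)

theorem kumMul_mk (u : pDivUnits K F m) :
    kumMul (K := K) (F := F) m (Kum.mk u) =
      Multiplicative.ofAdd (Pic0.mk ⟨divDiv m u, degree_divDiv m u⟩) := rfl

/-- the Kummer map `Kum K F m → Pic⁰(F)[m]` -/
def kum : Additive (Kum K F m) →+ Pic0.torsion K F m :=
  AddMonoidHom.codRestrict
    (MonoidHom.toAdditiveLeft (kumMul (K := K) (F := F) m))
    (Pic0.torsion K F m) (by
      intro x
      obtain ⟨u, hu⟩ := Kum.mk_surjective (Additive.toMul x)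
      have hx : x = Additive.ofMul (Kum.mk u) := by rw [hu]; rfl
      rw [hx]
      exact kum0_mem_torsion m u)

theorem kum_mk (u : pDivUnits K F m) :
    ((kum m (Additive.ofMul (Kum.mk u)) : Pic0.torsion K F m) : Pic0 K F) =
      Pic0.mk ⟨divDiv m u, degree_divDiv m u⟩ := rfl

/-- **the Kummer map is injective** when functions without zeros and poles are constants which
are `m`-th powers. -/
theorem kum_injective
    (hconst : ∀ f : F, f ≠ 0 → (∀ v : Place K F, v.ord f = 0) → ∃ c : K, f = algebraMap K F c)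
    (hroot : ∀ c : K, ∃ d : K, d ^ m = c) : Function.Injective (kum (K := K) (F := F) m) := by
  rw [injective_iff_map_eq_zero]
  intro x hx
  obtain ⟨u, rfl⟩ := Kum.mk_surjective (Additive.toMul x)
  have h1 : ((kum m (Additive.ofMul (Kum.mk u)) : Pic0.torsion K F m) : Pic0 K F) = 0 := by
    have := congrArg (fun z : Pic0.torsion K F m => (z : Pic0 K F)) hx
    exact this
  rw [kum_mk, mk_eq_zero_iff] at h1
  obtain ⟨h, hh, hD⟩ := h1
  -- `u / h^m` has trivial divisor
  have hm : (m : ℤ) ≠ 0 := Int.natCast_ne_zero.2 (NeZero.ne m)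
  have hq : ∀ v : Place K F, v.ord (((u : Fˣ) : F) * (h ^ m)⁻¹) = 0 := by
    intro v
    rw [Place.ord_mul _ (u : Fˣ).ne_zero (inv_ne_zero (pow_ne_zero m hh)), Place.ord_inv,
      ← zpow_natCast, Place.ord_zpow, ← mul_divDiv_apply m u v]
    have := hD v
    simp only at this
    rw [this]
    ring
  obtain ⟨c, hc⟩ := hconst _ (mul_ne_zero (u : Fˣ).ne_zero (inv_ne_zero (pow_ne_zero m hh))) hq
  obtain ⟨d, hd⟩ := hroot c
  have hc0 : c ≠ 0 := by
    rintro rfl
    rw [map_zero] at hc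
    exact (mul_ne_zero (u : Fˣ).ne_zero (inv_ne_zero (pow_ne_zero m hh))) hc
  have hd0 : d ≠ 0 := by
    rintro rfl
    rw [zero_pow (NeZero.ne m)] at hd
    exact hc0 hd.symm
  -- `u = (d h)^m`
  have hu : ((u : Fˣ) : F) = (algebraMap K F d * h) ^ m := by
    have h2 : ((u : Fˣ) : F) = algebraMap K F c * h ^ m := by
      rw [← hc, mul_assoc, inv_mul_cancel₀ (pow_ne_zero m hh), mul_one]
    rw [h2, mul_pow, ← map_pow, hd]
  have hw0 : algebraMap K F d * h ≠ 0 :=
    mul_ne_zero ((map_ne_zero (algebraMap K F)).2 hd0) hh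
  show Additive.ofMul (Kum.mk u) = Additive.ofMul 1
  congr 1
  rw [← map_one (Kum.mk : pDivUnits K F m →* Kum K F m), Kum.mk_eq_mk_iff]
  refine ⟨(Units.mk0 _ hw0)⁻¹, ?_⟩
  apply Units.ext
  show ((1 : pDivUnits K F m) : Fˣ).1 = ((u : Fˣ) * ((Units.mk0 _ hw0)⁻¹) ^ m : Fˣ).1
  rw [Units.val_mul, Units.val_pow_eq_pow_val, Units.val_inv_eq_inv_val, Units.val_mk0, hu,
    inv_pow, mul_inv_cancel₀ (pow_ne_zero m hw0)]
  rfl

/-- **the Kummer map is surjective.** -/
theorem kum_surjective : Function.Surjective (kum (K := K) (F := F) m) := by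
  intro x
  obtain ⟨D, hD⟩ := Pic0.mk_surjective (x : Pic0 K F)
  have hx : (m : ℤ) • (x : Pic0 K F) = 0 := Pic0.mem_torsion.1 x.2
  rw [← hD] at hx
  have h2 : (m : ℤ) • Pic0.mk D = Pic0.mk ((m : ℤ) • D) := rfl
  rw [h2, mk_eq_zero_iff] at hx
  obtain ⟨f, hf, hfD⟩ := hx
  have hfD' : ∀ v : Place K F, (m : ℤ) * (D : Divisor K F) v = v.ord f := by
    intro v
    have := hfD v
    rw [← this]
    show (m : ℤ) * (D : Divisor K F) v = ((m : ℤ) • (D : Divisor K F)) v
    rw [Finsupp.smul_apply, smul_eq_mul]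
  have hmem : Units.mk0 f hf ∈ pDivUnits K F m := fun v => ⟨_, (hfD' v).symm⟩
  refine ⟨Additive.ofMul (Kum.mk ⟨Units.mk0 f hf, hmem⟩), ?_⟩
  apply Subtype.ext
  rw [kum_mk, ← hD]
  congr 1
  apply Subtype.ext
  ext v
  have hm : (m : ℤ) ≠ 0 := Int.natCast_ne_zero.2 (NeZero.ne m)
  apply mul_left_cancel₀ hm
  show (m : ℤ) * divDiv m ⟨Units.mk0 f hf, hmem⟩ v = _
  rw [mul_divDiv_apply, hfD' v]
  rfl

/-- **the Kummer isomorphism `Kum K F m ≃+ Pic⁰(F)[m]`.** -/
def kummerEquiv
    (hconst : ∀ f : F, f ≠ 0 → (∀ v : Place K F, v.ord f = 0) → ∃ c : K, f = algebraMap K F c)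
    (hroot : ∀ c : K, ∃ d : K, d ^ m = c) :
    Additive (Kum K F m) ≃+ Pic0.torsion K F m :=
  AddEquiv.ofBijective (kum m) ⟨kum_injective m hconst hroot, kum_surjective m⟩

theorem natCard_torsion_eq
    (hconst : ∀ f : F, f ≠ 0 → (∀ v : Place K F, v.ord f = 0) → ∃ c : K, f = algebraMap K F c)
    (hroot : ∀ c : K, ∃ d : K, d ^ m = c) :
    Nat.card (Pic0.torsion K F m) = Nat.card (Kum K F m) :=
  (Nat.card_congr ((kummerEquiv m hconst hroot).toEquiv.symm.trans Additive.toMul)).trans rfl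

end Fermat.Agent.GH.KummerPic
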