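/-
CELL-H / CELL-R shared node (H-d) (helper18): **the torsion count of `J₀(N)` over `ℚ̄`**

  `Nat.card (Pic0.torsion ℚ̄ (F_N) m) = m ^ (2 · dim S₂(Γ₀(N)))`      for every `m ≥ 1`,

`F_N = modularFunctionFieldBar N` the function field of `X₀(N)` over `ℚ̄`, and the prelude predicate
`AbelJacobiCard ℚ̄ F_N ℓ g` with `g = dim S₂(Γ₀(N))` (the hypothesis of the frozen S27, for `X₀(N)`).

Proof: the generic Kummer isomorphism `Kum K F m ≃+ Pic⁰(F)[m]` (`GH/KummerPic.lean`), GATE-J's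
`thetaQ : GoodHom N m ≃+ Kum ℚ̄ F_N m` and `ModCount.card_isParFin_eq`.
-/
import Mathlib
import Fermat.Agent.GH.KummerPic
import Fermat.Agent.GJ.J2.Tower.ThetaQ
import Fermat.Agent.GJ.J2.ModCount
import Fermat.Agent.GJ.FF.Instances
import Fermat.Agent.S24_helper62.CuspFibre

set_option autoImplicit false

open CongruenceSubgroup AlgebraicCurve ModularCurve

noncomputable section

namespace Fermat.Agent.GH.TorsionCount

open Fermat.Agent.GJ.KumGroup Fermat.Agent.GJ.KumTower Fermat.Agent.S24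

variable (N : ℕ) [NeZero N]

/-- the function field of `X₀(N)` over `ℚ̄` has principal divisors of degree `0` -/
theorem hasPrincipalDivisors_FK : HasPrincipalDivisors Kb (FK N) :=
  haveI : IsGen Kbar (jF N) := Fermat.Agent.S24_helper62.isGen_jF N
  Fermat.Agent.GJ.FF.PrincipalOf.hasPrincipalDivisors_gen (jF N)

/-- functions on `X₀(N)_ℚ̄` without zeros and poles are constants -/
theorem exists_const_FK (f : FK N) (h0 : ∀ v : Place Kb (FK N), v.ord f = 0) :
    ∃ c : Kb, f = algebraMap Kb (FK N) c :=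
  haveI : IsGen Kbar (jF N) := Fermat.Agent.S24_helper62.isGen_jF N
  Fermat.Agent.GJ.FF.Fibre.exists_const_of_forall_ord_eq_zero' (jF N) h0

/-- every element of `ℚ̄` is an `m`-th power -/
theorem exists_root_Kb (m : ℕ) [NeZero m] (c : Kb) : ∃ d : Kb, d ^ m = c :=
  IsAlgClosed.exists_pow_nat_eq c (Nat.pos_of_ne_zero (NeZero.ne m))

/-- **the number of `m`-divisible Kummer classes** of `X₀(N)_ℚ̄` -/
theorem natCard_kum (m : ℕ) [NeZero m] :
    Nat.card (Kum Kb (FK N) m) = m ^ (2 * Module.finrank ℂ (CuspForm (Gamma0 N) 2)) := by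
  have hζ : IsPrimitiveRoot (Complex.exp (2 * Real.pi * Complex.I / m)) m :=
    Complex.isPrimitiveRoot_exp m (NeZero.ne m)
  have e : GoodHom N m ≃ Kum Kb (FK N) m :=
    (thetaQ N m hζ).toEquiv.trans Additive.toMul
  rw [← Nat.card_congr e]
  exact Fermat.Agent.GJ.J2.ModCount.card_isParFin_eq N m

/-- the Kummer isomorphism for `X₀(N)_ℚ̄` -/
def kummerEquivFK (m : ℕ) [NeZero m] :
    haveI := hasPrincipalDivisors_FK N
    Additive (Kum Kb (FK N) m) ≃+ Pic0.torsion Kb (FK N) m :=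
  haveI := hasPrincipalDivisors_FK N
  KummerPic.kummerEquiv m (fun f _ h0 => exists_const_FK N f h0) (exists_root_Kb m)

/-- **(H-d) the torsion count of `J₀(N)`**: `#J₀(N)(ℚ̄)[m] = m ^ (2g)`, `g = dim S₂(Γ₀(N))`. -/
theorem natCard_torsion (m : ℕ) [NeZero m] :
    Nat.card (Pic0.torsion Kb (FK N) m) = m ^ (2 * Module.finrank ℂ (CuspForm (Gamma0 N) 2)) := by
  have := hasPrincipalDivisors_FK N
  rw [KummerPic.natCard_torsion_eq m (fun f _ h0 => exists_const_FK N f h0) (exists_root_Kb m),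
    natCard_kum]

/-- the same, in the spelling of the prelude (`JZero N`, `modularFunctionFieldBar N`) -/
theorem natCard_torsion_JZero (m : ℕ) (hm : m ≠ 0) :
    Nat.card (Pic0.torsion (AlgebraicClosure ℚ) (modularFunctionFieldBar N) m) =
      m ^ (2 * Module.finrank ℂ (CuspForm (Gamma0 N) 2)) :=
  haveI : NeZero m := ⟨hm⟩
  natCard_torsion N m

/-- the same for `Submodule.torsionBy ℤ (JZero N) m` (the S19 spelling) -/
theorem natCard_torsionBy_JZero (m : ℕ) (hm : m ≠ 0) :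
    Nat.card (Submodule.torsionBy ℤ (JZero N) (m : ℤ)) =
      m ^ (2 * Module.finrank ℂ (CuspForm (Gamma0 N) 2)) :=
  natCard_torsion_JZero N m hm

/-- **`AbelJacobiCard` for `X₀(N)`** (the hypothesis of the frozen S27), `g = dim S₂(Γ₀(N))`. -/
theorem abelJacobiCard (ℓ : ℕ) (hℓ : ℓ ≠ 0) :
    AbelJacobiCard (AlgebraicClosure ℚ) (modularFunctionFieldBar N) ℓ
      (Module.finrank ℂ (CuspForm (Gamma0 N) 2)) := by
  intro n
  rw [natCard_torsion_JZero N (ℓ ^ n) (pow_ne_zero n hℓ), ← pow_mul]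
  congr 1
  ring

/-- `J₀(N)(ℚ̄)[m]` is finite -/
theorem finite_torsion (m : ℕ) (hm : m ≠ 0) :
    Finite (Pic0.torsion (AlgebraicClosure ℚ) (modularFunctionFieldBar N) m) := by
  apply Nat.finite_of_card_ne_zero
  rw [natCard_torsion_JZero N m hm]
  exact pow_ne_zero _ hm

end Fermat.Agent.GH.TorsionCount
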