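/-
GATE-H / S32 seam (helper83): **Galois-equivariance of the Kummer isomorphism**
`kummerEquivFK N m : Additive (Kum ℚ̄ F_N m) ≃+ J₀(N)(ℚ̄)[m]` of `GH/TorsionCount.lean`
(helper18), with respect to

* the coefficientwise Galois action `KumType.gal N m` on the Kummer group (`GJ/Kum/KumType.lean`);
* the prelude action `σ • x = arithmeticGalois (modularFunctionFieldFull N) σ • x` on
  `JZero N = Pic⁰(F_N)` (`JZero.torsionGaloisRep`).

Generic part: for every semilinear automorphism `g` of a function field `F / K` with principal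
divisors, `g • [(1/m)·div u] = [(1/m)·div (g • u)]`.

Also: the same isomorphism onto the frozen S19 codomain
`Submodule.torsionBy ℤ (JZero N) ((ℓ : ℤ) ^ k)`.
-/
import Mathlib
import Fermat.Agent.GH.TorsionCount
import Fermat.Agent.GJ.Kum.KumType

set_option autoImplicit false

noncomputable section

namespace Fermat.Agent.GH.KummerEquivariant

open AlgebraicCurve ModularCurve Fermat.Agent.GJ.KumGroup Fermat.Agent.GH.KummerPic

/-! ### Generic part -/

section Generic

variable {K F : Type*} [Field K] [Field F] [Algebra K F]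

/-- a semilinear automorphism acting on the units of `F` -/
def smulUnits (g : SemilinearAut K F) : Fˣ →* Fˣ :=
  Units.map ((SemilinearAut.toRingAut g : F ≃+* F) : F →* F)

@[simp]
theorem coe_smulUnits (g : SemilinearAut K F) (u : Fˣ) :
    ((smulUnits g u : Fˣ) : F) = g • (u : F) := rfl

theorem smulUnits_mem (m : ℕ) (g : SemilinearAut K F) (u : Fˣ) (hu : u ∈ pDivUnits K F m) :
    smulUnits g u ∈ pDivUnits K F m :=
  Fermat.Agent.GJ.Kum.GalDiv.dvd_ord_smul g (m : ℤ) hu

/-- the action on `m`-divisible units -/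
def smulDiv (m : ℕ) (g : SemilinearAut K F) (u : pDivUnits K F m) : pDivUnits K F m :=
  ⟨smulUnits g u, smulUnits_mem m g u u.2⟩

@[simp]
theorem coe_smulDiv (m : ℕ) (g : SemilinearAut K F) (u : pDivUnits K F m) :
    (((smulDiv m g u : pDivUnits K F m) : Fˣ) : F) = g • ((u : Fˣ) : F) := rfl

variable [HasPrincipalDivisors K F]

/-- `(1/m)·div (g • u) = g • (1/m)·div u` -/
theorem divDiv_smulDiv (m : ℕ) (g : SemilinearAut K F) (u : pDivUnits K F m) :
    divDiv m (smulDiv m g u) = g • divDiv m u := by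
  ext w
  rw [divDiv_apply, SemilinearAut.divisor_smul_apply, divDiv_apply, coe_smulDiv,
    Fermat.Agent.GJ.Kum.GalDiv.ord_smul_eq]

variable (m : ℕ) [NeZero m]

/-- **the Kummer map is equivariant for semilinear automorphisms** -/
theorem smul_kum_mk (g : SemilinearAut K F) (u : pDivUnits K F m) :
    g • ((kum m (Additive.ofMul (Kum.mk u)) : Pic0.torsion K F m) : Pic0 K F) =
      ((kum m (Additive.ofMul (Kum.mk (smulDiv m g u))) : Pic0.torsion K F m) : Pic0 K F) := by
  rw [kum_mk, kum_mk, SemilinearAut.pic0_smul_mk]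
  congr 1
  apply Subtype.ext
  rw [SemilinearAut.coe_degZeroSMulHom]
  exact (divDiv_smulDiv m g u).symm

/-- the same, inside the torsion subgroup -/
theorem smul_kum_mk' (g : SemilinearAut K F) (u : pDivUnits K F m) :
    g • (kum m (Additive.ofMul (Kum.mk u)) : Pic0.torsion K F m) =
      kum m (Additive.ofMul (Kum.mk (smulDiv m g u))) :=
  Subtype.ext (smul_kum_mk m g u)

end Generic

/-! ### The modular curve `X₀(N)` over `ℚ̄` -/

section Modular

open Fermat.Agent.GJ.Kum.KumType Fermat.Agent.GH.TorsionCount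

local notation "GQ" => (AlgebraicClosure ℚ ≃ₐ[ℚ] AlgebraicClosure ℚ)

variable (N : ℕ) [NeZero N] (m : ℕ) [NeZero m]

omit [NeZero N] in
/-- the coefficientwise Galois action on units is the action of `arithmeticGalois` -/
theorem galUnits_eq_smulUnits (σ : GQ) :
    galUnits N σ = smulUnits (arithmeticGalois (modularFunctionFieldFull N) σ) := rfl

theorem kummerEquivFK_apply (x : Additive (Kum Kb (FK N) m)) :
    haveI := hasPrincipalDivisors_FK N
    kummerEquivFK N m x = kum m x := rfl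

/-- the value of the Kummer isomorphism on the class of a unit -/
theorem coe_kummerEquivFK_mk (u : pDivUnits Kb (FK N) m) :
    haveI := hasPrincipalDivisors_FK N
    ((kummerEquivFK N m (Additive.ofMul (Kum.mk u)) : Pic0.torsion Kb (FK N) m) : JZero N) =
      Pic0.mk ⟨divDiv m u, degree_divDiv m u⟩ := rfl

/-- **Galois-equivariance of the Kummer isomorphism** `Kum_m(F_N) ≃+ J₀(N)[m]`,
`SemilinearAut` spelling -/
theorem kummerEquivFK_gal' (σ : GQ) (x : Additive (Kum Kb (FK N) m)) :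
    kummerEquivFK N m (gal N m σ x) =
      arithmeticGalois (modularFunctionFieldFull N) σ • kummerEquivFK N m x := by
  have := hasPrincipalDivisors_FK N
  obtain ⟨u, rfl⟩ := exists_rep x
  rw [gal_mk]
  exact (smul_kum_mk' m (arithmeticGalois (modularFunctionFieldFull N) σ) u).symm

/-- **Galois-equivariance of the Kummer isomorphism**, `JZero.torsionGaloisRep` spelling -/
theorem kummerEquivFK_gal (σ : GQ) (x : Additive (Kum Kb (FK N) m)) :
    kummerEquivFK N m (gal N m σ x) =
      JZero.torsionGaloisRep N m σ (kummerEquivFK N m x) :=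
  kummerEquivFK_gal' N m σ x

/-- **Galois-equivariance of the Kummer isomorphism**, in the spelling `σ • (· : JZero N)` of the
frozen S19 -/
theorem coe_kummerEquivFK_gal (σ : GQ) (x : Additive (Kum Kb (FK N) m)) :
    ((kummerEquivFK N m (gal N m σ x) : Pic0.torsion Kb (FK N) m) : JZero N) =
      σ • ((kummerEquivFK N m x : Pic0.torsion Kb (FK N) m) : JZero N) := by
  rw [kummerEquivFK_gal]
  exact JZero.coe_torsionGaloisRep_apply N σ _

/-- the inverse is equivariant too -/
theorem kummerEquivFK_symm_smul (σ : GQ) (y : Pic0.torsion Kb (FK N) m) :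
    (kummerEquivFK N m).symm (JZero.torsionGaloisRep N m σ y) =
      gal N m σ ((kummerEquivFK N m).symm y) := by
  apply (kummerEquivFK N m).injective
  rw [AddEquiv.apply_symm_apply, kummerEquivFK_gal, AddEquiv.apply_symm_apply]

/-- the Kummer isomorphism intertwines the two representations -/
theorem kummerEquivFK_comp_gal (σ : GQ) :
    ((kummerEquivFK N m : Additive (Kum Kb (FK N) m) →+ Pic0.torsion Kb (FK N) m)).comp
        ((gal N m σ : Module.End (ZMod m) (Additive (Kum Kb (FK N) m))) :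
          Additive (Kum Kb (FK N) m) →+ Additive (Kum Kb (FK N) m)) =
      ((JZero.torsionGaloisRep N m σ : Module.End (ZMod m) (Pic0.torsion Kb (FK N) m)) :
          Pic0.torsion Kb (FK N) m →+ Pic0.torsion Kb (FK N) m).comp
        (kummerEquivFK N m : Additive (Kum Kb (FK N) m) →+ Pic0.torsion Kb (FK N) m) :=
  AddMonoidHom.ext fun x => kummerEquivFK_gal N m σ x

/-- the Kummer isomorphism is `ZMod m`-linear (both sides are `m`-torsion groups with their
canonical `ZMod m`-structure) -/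
def kummerLinearEquivFK :
    Additive (Kum Kb (FK N) m) ≃ₗ[ZMod m] Pic0.torsion Kb (FK N) m :=
  { kummerEquivFK N m with
    map_smul' := fun c x =>
      ZMod.map_smul (kummerEquivFK N m : Additive (Kum Kb (FK N) m) →+ Pic0.torsion Kb (FK N) m)
        c x }

@[simp]
theorem kummerLinearEquivFK_apply (x : Additive (Kum Kb (FK N) m)) :
    kummerLinearEquivFK N m x = kummerEquivFK N m x := rfl

/-- the `ZMod m`-linear Kummer isomorphism conjugates `gal` into `torsionGaloisRep` -/
theorem kummerLinearEquivFK_conj (σ : GQ) :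
    (kummerLinearEquivFK N m).conj (gal N m σ) = JZero.torsionGaloisRep N m σ := by
  refine LinearMap.ext fun y => ?_
  rw [LinearEquiv.conj_apply_apply]
  show kummerEquivFK N m (gal N m σ ((kummerEquivFK N m).symm y)) = _
  rw [kummerEquivFK_gal, AddEquiv.apply_symm_apply]

/-! ### The frozen S19 codomain `Submodule.torsionBy ℤ (JZero N) ((ℓ : ℤ) ^ k)` -/

omit [NeZero N] in
/-- `Pic0.torsion … (ℓ ^ k)` and `Submodule.torsionBy ℤ (JZero N) ((ℓ : ℤ) ^ k)` have the same
elements -/
theorem mem_torsion_pow_iff (ℓ k : ℕ) (x : JZero N) :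
    x ∈ Pic0.torsion Kb (FK N) (ℓ ^ k) ↔ x ∈ Submodule.torsionBy ℤ (JZero N) ((ℓ : ℤ) ^ k) := by
  rw [Pic0.mem_torsion, Submodule.mem_torsionBy_iff, Nat.cast_pow]

/-- the identity, as an additive isomorphism between the two spellings of `J₀(N)[ℓ^k]` -/
def torsionPowEquiv (ℓ k : ℕ) :
    Pic0.torsion Kb (FK N) (ℓ ^ k) ≃+ ↥(Submodule.torsionBy ℤ (JZero N) ((ℓ : ℤ) ^ k)) where
  toFun x := ⟨(x : JZero N), (mem_torsion_pow_iff N ℓ k _).1 x.2⟩
  invFun y := ⟨(y : JZero N), (mem_torsion_pow_iff N ℓ k _).2 y.2⟩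
  left_inv _ := rfl
  right_inv _ := rfl
  map_add' _ _ := rfl

omit [NeZero N] in
@[simp]
theorem coe_torsionPowEquiv (ℓ k : ℕ) (x : Pic0.torsion Kb (FK N) (ℓ ^ k)) :
    ((torsionPowEquiv N ℓ k x : ↥(Submodule.torsionBy ℤ (JZero N) ((ℓ : ℤ) ^ k))) : JZero N) =
      (x : JZero N) := rfl

/-- **the Kummer isomorphism onto the frozen S19 codomain**
`Kum_{ℓ^k}(F_N) ≃+ J₀(N)[ℓ^k] = Submodule.torsionBy ℤ (JZero N) ((ℓ : ℤ) ^ k)` -/
def kumTorsionBy (ℓ : ℕ) [NeZero ℓ] (k : ℕ) :
    Additive (Kum Kb (FK N) (ℓ ^ k)) ≃+ ↥(Submodule.torsionBy ℤ (JZero N) ((ℓ : ℤ) ^ k)) :=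
  (kummerEquivFK N (ℓ ^ k)).trans (torsionPowEquiv N ℓ k)

theorem coe_kumTorsionBy (ℓ : ℕ) [NeZero ℓ] (k : ℕ) (x : Additive (Kum Kb (FK N) (ℓ ^ k))) :
    ((kumTorsionBy N ℓ k x : ↥(Submodule.torsionBy ℤ (JZero N) ((ℓ : ℤ) ^ k))) : JZero N) =
      ((kummerEquivFK N (ℓ ^ k) x : Pic0.torsion Kb (FK N) (ℓ ^ k)) : JZero N) := rfl

/-- **Galois-equivariance of `kumTorsionBy`**, in the spelling of the frozen S19 -/
theorem coe_kumTorsionBy_gal (ℓ : ℕ) [NeZero ℓ] (k : ℕ) (σ : GQ)
    (x : Additive (Kum Kb (FK N) (ℓ ^ k))) :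
    ((kumTorsionBy N ℓ k (gal N (ℓ ^ k) σ x) :
        ↥(Submodule.torsionBy ℤ (JZero N) ((ℓ : ℤ) ^ k))) : JZero N) =
      σ • ((kumTorsionBy N ℓ k x : ↥(Submodule.torsionBy ℤ (JZero N) ((ℓ : ℤ) ^ k))) : JZero N) := by
  rw [coe_kumTorsionBy, coe_kumTorsionBy, coe_kummerEquivFK_gal]

/-- the inverse direction: `σ • y` corresponds to `gal σ` -/
theorem kumTorsionBy_symm_smul (ℓ : ℕ) [NeZero ℓ] (k : ℕ) (σ : GQ)
    (y z : ↥(Submodule.torsionBy ℤ (JZero N) ((ℓ : ℤ) ^ k)))
    (h : (z : JZero N) = σ • (y : JZero N)) :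
    (kumTorsionBy N ℓ k).symm z = gal N (ℓ ^ k) σ ((kumTorsionBy N ℓ k).symm y) := by
  apply (kumTorsionBy N ℓ k).injective
  apply Subtype.ext
  rw [AddEquiv.apply_symm_apply, coe_kumTorsionBy_gal, AddEquiv.apply_symm_apply, h]

end Modular

end Fermat.Agent.GH.KummerEquivariant
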