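/-
GATE-H (S19) / VOCABULARY PIN (helper32, gate lead).  Definitions only, no theorems to prove here.

Abstract frame (Galois-free): `R : RedData K F k Ft` (GJ/J1/Defs), `H : LSpaceHyp R g c`
(GJ/S37/LSpaceRed), place reduction `rOf H : Place K F → Place k Ft` with the fibre formula
`ord_red_eq_sum` (GJ/S37/ROfSurj).  All coefficients live in the valuation ring `R.A` of `K`.

* `disc H Q`        : the residue disc of a place `Q` of the special fibre.
* `Odisc H Q`       : Gauss-integral functions without pole on the disc (`helper82`'s local ring;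
                      NOT the rank-two valuation ring).
* `ValueAt P e a`   : "`e(P) = a`".
* `ChartPt H Q`     : a centre `P` in the disc of `Q` with a parameter `t`.
* `Chart H n`       : `n` chart points over pairwise distinct special places whose sum is
                      non-special (`finrank L = 1`).  In the gate `n = g`.
* `KerRed H`        : classes of `Pic0 K F` with principal reduction.
* `IsCoord 𝔠 ξ τ`   : `ξ = [Σ P_i(τ_i) - D0]`, `P_i(τ_i)` the point of the `i`-th disc with `t_i = τ_i`.
* node contracts `CoordSpec`, `ChartSupply`, `AddSpec` (Prop-valued; produced by nodes L, G+L, ADD,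
  consumed by ORD).
-/
import Mathlib
import Fermat.Agent.GJ.S37.ROfSurj

set_option autoImplicit false

noncomputable section

open AlgebraicCurve

namespace Fermat.Agent.GH

open Fermat.Agent.RRh45 Fermat.Agent.GJ.S37MinDiv Fermat.Agent.GJ.J1 Fermat.Agent.GJ.S37LSpace
  Fermat.Agent.GJ.S37ROfSurj

variable {K F k Ft : Type*} [Field K] [Field F] [Algebra K F] [Field k] [Field Ft] [Algebra k Ft]
variable {R : RedData K F k Ft} {g c : ℤ}
variable [FiniteResidues K F] [HasPrincipalDivisors K F] [Nonempty (Place K F)]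
variable [FiniteResidues k Ft] [HasPrincipalDivisors k Ft] [Nonempty (Place k Ft)]
variable [Infinite k]

/-- the residue disc of the special place `Q`. -/
def disc (H : LSpaceHyp R g c) (Q : Place k Ft) : Set (Place K F) := {P | rOf H P = Q}

/-- Gauss-integral functions without pole on the residue disc of `Q`. -/
def Odisc (H : LSpaceHyp R g c) (Q : Place k Ft) : Set F :=
  {e | e ∈ R.Rw ∧ ∀ P ∈ disc H Q, e ∈ P.toValuationSubring}

/-- "`e(P) = a`": `e - a` lies in the maximal ideal of the place `P`. -/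
def ValueAt (P : Place K F) (e : F) (a : K) : Prop :=
  P.toValuationSubring.valuation (e - algebraMap K F a) < 1

/-- A chart point over the special place `Q`: a centre `P` in the disc and a parameter `t`,
Gauss-integral, without pole on the disc, vanishing at `P`, whose reduction is a uniformiser
at `Q`. -/
structure ChartPt (H : LSpaceHyp R g c) (Q : Place k Ft) where
  P : Place K F
  hP : P ∈ disc H Q
  t : F
  ht : t ∈ Odisc H Q
  ht0 : ValueAt P t 0
  hred : Q.ord (R.red ⟨t, ht.1⟩) = 1

/-- A chart with `n` points (in the gate: `n = g`): pairwise distinct special places, one chart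
point over each, and the reduced special divisor `Σ Q_i` is non-special (`l = 1`). -/
structure Chart (H : LSpaceHyp R g c) (n : ℕ) where
  Q : Fin n → Place k Ft
  hQ : Function.Injective Q
  pt : ∀ i, ChartPt H (Q i)
  hns : Module.finrank k (riemannRochSpace (∑ i, Finsupp.single (Q i) (1 : ℤ))) = 1

namespace Chart

variable {H : LSpaceHyp R g c} {n : ℕ}

/-- the base divisor `D0 = Σ P_i` of the chart. -/
def D0 (𝔠 : Chart H n) : Divisor K F := ∑ i, Finsupp.single (𝔠.pt i).P (1 : ℤ)

/-- the set of special places of the chart. -/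
def supp (𝔠 : Chart H n) : Set (Place k Ft) := Set.range 𝔠.Q

end Chart

/-- classes of degree-zero divisors with principal reduction. -/
def KerRed (H : LSpaceHyp R g c) : Set (Pic0 K F) :=
  {ξ | ∃ D : Divisor.degZero (K := K) (F := F), Pic0.mk D = ξ ∧
    Divisor.IsPrincipal (Finsupp.mapDomain (rOf H) (D : Divisor K F))}

/-- `τ` are the coordinates of `ξ` in the chart `𝔠`: `ξ = [Σ P_i(τ_i) - D0]` with `P_i(τ_i)` in the
`i`-th disc and `t_i (P_i(τ_i)) = τ_i`. -/
def IsCoord {H : LSpaceHyp R g c} {n : ℕ} (𝔠 : Chart H n) (ξ : Pic0 K F) (τ : Fin n → K) : Prop :=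
  ∃ Pτ : Fin n → Place K F, (∀ i, Pτ i ∈ disc H (𝔠.Q i)) ∧ (∀ i, ValueAt (Pτ i) (𝔠.pt i).t (τ i)) ∧
    ∃ hdeg : (∑ i, Finsupp.single (Pτ i) (1 : ℤ)) - 𝔠.D0 ∈ Divisor.degZero (K := K) (F := F),
      Pic0.mk ⟨_, hdeg⟩ = ξ

/-- CONTRACT of node L (coordinates on the kernel of reduction): existence, uniqueness, values in
the maximal ideal of `R.A`. -/
def CoordSpec (H : LSpaceHyp R g c) (n : ℕ) : Prop :=
  ∀ 𝔠 : Chart H n, ∀ ξ ∈ KerRed H,
    (∃ τ, IsCoord 𝔠 ξ τ) ∧ (∀ τ τ', IsCoord 𝔠 ξ τ → IsCoord 𝔠 ξ τ' → τ = τ') ∧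
      ∀ τ, IsCoord 𝔠 ξ τ → ∀ i, R.A.valuation (τ i) < 1

/-- CONTRACT of nodes G + L (supply of charts): charts exist off any finite set of special
places. -/
def ChartSupply (H : LSpaceHyp R g c) (n : ℕ) : Prop :=
  ∀ S : Finset (Place k Ft), ∃ 𝔠 : Chart H n, ∀ i, 𝔠.Q i ∉ S

/-- CONTRACT of node ADD: for three charts with pairwise disjoint special supports, on any finite
family of pairs of classes the coordinates of the sum in the third chart lie in the `R.A`-algebra
generated by the coordinates of the summands. -/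
def AddSpec (H : LSpaceHyp R g c) (n : ℕ) : Prop :=
  ∀ (𝔞 𝔟 𝔠 : Chart H n), Disjoint 𝔞.supp 𝔟.supp → Disjoint 𝔞.supp 𝔠.supp → Disjoint 𝔟.supp 𝔠.supp →
    ∀ (Z : Type) [Finite Z] (ξ η : Z → Pic0 K F) (τ σ μ : Z → Fin n → K),
      (∀ z, IsCoord 𝔞 (ξ z) (τ z)) → (∀ z, IsCoord 𝔟 (η z) (σ z)) →
      (∀ z, IsCoord 𝔠 (ξ z + η z) (μ z)) →
      ∀ j, (fun z => μ z j) ∈
        Algebra.adjoin R.A ({f : Z → K | ∃ i, f = fun z => τ z i} ∪ {f | ∃ i, f = fun z => σ z i})

end Fermat.Agent.GH
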