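/-
CELL-H node G8 (finiteness + open stabilisers), CELL-R (helper18): consequences of the torsion count
`GH/TorsionCount.lean` for the Galois module `J₀(N)(ℚ̄)[m]`:

* `natCard_torsionBy_pow` / `finite_torsionBy_pow` : the count in the spelling of the frozen S19
  codomain `Submodule.torsionBy ℤ (JZero N) ((ℓ : ℤ) ^ k)`;
* `factorsThroughFiniteLevel_torsionGaloisRep` : the prelude's `JZero.torsionGaloisRep N m` factors
  through a finite level, UNCONDITIONALLY (helper69's `GJ/FiniteLevel` + finiteness);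
* `exists_level_torsion` : one finite extension `E / ℚ` such that `Gal(ℚ̄/E)` fixes every point of
  `J₀(N)[m]`.
-/
import Mathlib
import Fermat.Agent.GH.TorsionCount
import Fermat.Agent.GJ.FiniteLevel

set_option autoImplicit false

open CongruenceSubgroup AlgebraicCurve ModularCurve

noncomputable section

namespace Fermat.Agent.GH.TorsionLevel

open Fermat.Agent.GH.TorsionCount

variable (N : ℕ) [NeZero N]

/-- the count for `Submodule.torsionBy ℤ (JZero N) ((ℓ : ℤ) ^ k)` (the frozen S19 codomain) -/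
theorem natCard_torsionBy_pow (ℓ : ℕ) (hℓ : ℓ ≠ 0) (k : ℕ) :
    Nat.card (Submodule.torsionBy ℤ (JZero N) ((ℓ : ℤ) ^ k)) =
      ℓ ^ (2 * Module.finrank ℂ (CuspForm (Gamma0 N) 2) * k) := by
  have h := natCard_torsionBy_JZero N (ℓ ^ k) (pow_ne_zero k hℓ)
  rw [Nat.cast_pow] at h
  rw [h, ← pow_mul]
  congr 1
  ring

/-- `J₀(N)(ℚ̄)[ℓ^k]` is finite (the frozen S19 codomain) -/
theorem finite_torsionBy_pow (ℓ : ℕ) (hℓ : ℓ ≠ 0) (k : ℕ) :
    Finite (Submodule.torsionBy ℤ (JZero N) ((ℓ : ℤ) ^ k)) := by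
  apply Nat.finite_of_card_ne_zero
  rw [natCard_torsionBy_pow N ℓ hℓ k]
  exact pow_ne_zero _ hℓ

/-- `J₀(N)(ℚ̄)[m]` is finite, `Submodule.torsionBy` spelling -/
theorem finite_torsionBy (m : ℕ) (hm : m ≠ 0) :
    Finite (Submodule.torsionBy ℤ (JZero N) (m : ℤ)) :=
  finite_torsion N m hm

/-- **the Galois representation on `J₀(N)[m]` factors through a finite level**, unconditionally. -/
theorem factorsThroughFiniteLevel_torsionGaloisRep (m : ℕ) (hm : m ≠ 0) :
    GaloisFactorsThroughFiniteLevel (JZero.torsionGaloisRep N m) :=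
  haveI := finite_torsion N m hm
  Fermat.Agent.GJ.FiniteLevel.factorsThroughFiniteLevel_torsionGaloisRep N hm

/-- one finite extension `E / ℚ` whose absolute Galois group fixes every point of `J₀(N)[m]`. -/
theorem exists_level_torsion (m : ℕ) (hm : m ≠ 0) :
    ∃ E : IntermediateField ℚ (AlgebraicClosure ℚ), FiniteDimensional ℚ E ∧
      ∀ σ : AlgebraicClosure ℚ ≃ₐ[ℚ] AlgebraicClosure ℚ, (∀ a ∈ E, σ a = a) →
        ∀ x : JZero N, (m : ℤ) • x = 0 → σ • x = x := by
  obtain ⟨E, hE, hfix⟩ := factorsThroughFiniteLevel_torsionGaloisRep N m hm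
  refine ⟨E, hE, fun σ hσ x hx => ?_⟩
  have hmem : x ∈ Pic0.torsion (AlgebraicClosure ℚ) (modularFunctionFieldBar N) m :=
    Pic0.mem_torsion.2 hx
  have h1 := hfix σ hσ
  have h2 := congrArg (fun f : Module.End (ZMod m)
      (Pic0.torsion (AlgebraicClosure ℚ) (modularFunctionFieldBar N) m) => f ⟨x, hmem⟩) h1
  have h3 := congrArg (fun z : Pic0.torsion (AlgebraicClosure ℚ) (modularFunctionFieldBar N) m =>
      (z : JZero N)) h2
  exact (JZero.coe_torsionGaloisRep_apply N σ ⟨x, hmem⟩).symm.trans h3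

end Fermat.Agent.GH.TorsionLevel
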