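/-
CELL-H / CELL-R (helper18): the GROUP STRUCTURE of `J₀(N)(ℚ̄)[m]`:

  `torsionEquivFun N m : Pic0.torsion ℚ̄ F_N m ≃+ (I N → ZMod m)`,   `#(I N) = 2 · dim S₂(Γ₀(N))`,

i.e. `J₀(N)[m] ≅ (ℤ/m)^{2g}` as abstract groups (composite of the Kummer isomorphism
`GH/KummerPic`, GATE-J's `thetaQ` and helper64's coordinates `ModCount.equivMod` on the mod-`m`
parabolic classes).
-/
import Mathlib
import Fermat.Agent.GH.TorsionCount

set_option autoImplicit false

open CongruenceSubgroup AlgebraicCurve ModularCurve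

noncomputable section

namespace Fermat.Agent.GH.TorsionStruct

open Fermat.Agent.GJ.KumGroup Fermat.Agent.GJ.KumTower Fermat.Agent.GH.TorsionCount
open Fermat.Agent.GJ.J2.ModCount Fermat.Agent.GJ.J2.ZStruct

variable (N : ℕ) [NeZero N] (m : ℕ) [NeZero m]

/-- helper64's coordinates on the good characters, additively -/
def goodEquivFun : GoodHom N m ≃+ (I N → ZMod m) where
  toFun ψ := equivMod N m ⟨ψ.1, ψ.2⟩
  invFun c := ⟨((equivMod N m).symm c).1, ((equivMod N m).symm c).2⟩
  left_inv ψ := by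
    apply Subtype.ext
    show (((equivMod N m).symm (equivMod N m ⟨ψ.1, ψ.2⟩)).1 : Additive (Gamma0 N) →+ ZMod m) = ψ.1
    rw [Equiv.symm_apply_apply]
  right_inv c := by
    show equivMod N m ⟨((equivMod N m).symm c).1, ((equivMod N m).symm c).2⟩ = c
    exact (equivMod N m).apply_symm_apply c
  map_add' _ _ := rfl

theorem goodEquivFun_apply (ψ : GoodHom N m) (i : I N) :
    goodEquivFun N m ψ i = (ψ : Additive (Gamma0 N) →+ ZMod m) (beta N i) := rfl

/-- the number of coordinates is `2g` -/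
theorem card_I : Fintype.card (I N) = 2 * Module.finrank ℂ (CuspForm (Gamma0 N) 2) := by
  have h1 := finrank_parabolicHoms_int_eq N
  have h2 := Fermat.Agent.S20.result N
  rw [← h2, finrank_parabolicHoms_int_eq_card] at h1
  have : (Fintype.card (I N) : ℚ)
      = ((2 * Module.finrank ℂ (CuspForm (Gamma0 N) 2) : ℕ) : ℚ) := by
    rw [h1]; push_cast; ring
  exact_mod_cast this

/-- **`J₀(N)(ℚ̄)[m] ≅ (ℤ/m)^{2g}`** -/
def torsionEquivFun : Pic0.torsion Kb (FK N) m ≃+ (I N → ZMod m) :=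
  ((kummerEquivFK N m).symm.trans
    (thetaQ N m (Complex.isPrimitiveRoot_exp m (NeZero.ne m))).symm).trans (goodEquivFun N m)

/-- `J₀(N)(ℚ̄)[m] ≅ (ℤ/m)^{2g}` with `Fin (2g)` coordinates -/
def torsionEquivFin :
    Pic0.torsion Kb (FK N) m ≃+
      (Fin (2 * Module.finrank ℂ (CuspForm (Gamma0 N) 2)) → ZMod m) :=
  (torsionEquivFun N m).trans
    (LinearEquiv.funCongrLeft ℤ (ZMod m)
      ((Fintype.equivFin (I N)).trans (finCongr (card_I N))).symm).toAddEquiv

end Fermat.Agent.GH.TorsionStruct
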